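/-
S33 programme, p-old half (helper63): the eigenbasis of `ρ σ0`, assembled from the pieces of
`S33P/Alg76/Cubic.lean` (helper76).  Mathlib + Alg76 only.  (Twin of the EIGEN brick; used by
`Red63/OldHalf.lean` so that the O-half does not wait.)
-/
import Mathlib
import Fermat.Agent.S33P.Alg76.Cubic

set_option autoImplicit false
set_option linter.unusedSectionVars false
set_option linter.style.haveILetI false

noncomputable section

namespace Fermat.Agent.S33P.Red63

open IsLocalRing Fermat.Agent.S33P.Alg76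

variable {T : Type*} [CommRing T] [IsLocalRing T] {V : Type*} [AddCommGroup V] [Module T V]
  [Module.Free T V] [Module.Finite T V]

/-- **Eigenbasis.**  `A` an endomorphism of a free module of rank 2 over a local ring with the
Hensel property, `det A = ε₀`, `ε₀ - 1` a unit, `tr A ≡ ε₀ + 1`: there is a basis of eigenvectors
with eigenvalues `α` (`α - 1` a unit) and `β ≡ 1`. -/
theorem exists_eigenbasis (hH : HenselProp T) (hV : Module.finrank T V = 2) (A : Module.End T V)
    (ε₀ : T) (hdet : LinearMap.det A = ε₀) (hu : IsUnit (ε₀ - 1))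
    (htr : LinearMap.trace T V A - (ε₀ + 1) ∈ maximalIdeal T) :
    ∃ (b : Module.Basis (Fin 2) T V) (α β : T), A (b 0) = α • b 0 ∧ A (b 1) = β • b 1 ∧
      IsUnit (α - 1) ∧ β - 1 ∈ maximalIdeal T ∧ IsUnit (α - β) ∧
      α + β = LinearMap.trace T V A ∧ α * β = ε₀ := by
  obtain ⟨α, β, hsum, hprod, hβ1, hαβ⟩ :=
    exists_roots hH (LinearMap.trace T V A) (LinearMap.det A) ε₀ hdet hu htr
  obtain ⟨u, hu'⟩ := hαβ
  have hA : ∀ v, A (A v) = (α + β) • A v - (α * β) • v := by
    intro v
    rw [hsum, hprod]
    exact cayley_two hV A v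
  have hrk := finrank_eig A α β u hu' hA hV hsum.symm
  haveI := free_eigA A α β u hu' hA
  haveI := free_eigB A α β u hu' hA
  haveI := finite_eigA A α β u hu' hA
  haveI := finite_eigB A α β u hu' hA
  let bα : Module.Basis (Fin 1) T (eig A α) := Module.finBasisOfFinrankEq T _ hrk.1
  let bβ : Module.Basis (Fin 1) T (eig A β) := Module.finBasisOfFinrankEq T _ hrk.2
  have hc := isCompl_eig A α β u hu' hA
  let b : Module.Basis (Fin 2) T V :=
    ((bα.prod bβ).map (Submodule.prodEquivOfIsCompl _ _ hc)).reindex finSumFinEquiv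
  have hb0 : b 0 = ((bα 0 : eig A α) : V) := by
    have h0 : (finSumFinEquiv (m := 1) (n := 1)).symm 0 = Sum.inl 0 := rfl
    simp only [b, Module.Basis.reindex_apply, Module.Basis.map_apply, h0,
      Module.Basis.prod_apply, Sum.elim_inl, Function.comp_apply, LinearMap.coe_inl,
      Submodule.coe_prodEquivOfIsCompl', Submodule.coe_zero, add_zero]
  have hb1 : b 1 = ((bβ 0 : eig A β) : V) := by
    have h1 : (finSumFinEquiv (m := 1) (n := 1)).symm 1 = Sum.inr 0 := rfl
    simp only [b, Module.Basis.reindex_apply, Module.Basis.map_apply, h1,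
      Module.Basis.prod_apply, Sum.elim_inr, Function.comp_apply, LinearMap.coe_inr,
      Submodule.coe_prodEquivOfIsCompl', Submodule.coe_zero, zero_add]
  refine ⟨b, α, β, ?_, ?_, ?_, hβ1, ⟨u, hu'⟩, hsum, by rw [hprod, hdet]⟩
  · rw [hb0]
    exact (mem_eig A).1 (bα 0).2
  · rw [hb1]
    exact (mem_eig A).1 (bβ 0).2
  · -- `α - 1 = (α - β) + (β - 1)`
    have h : α - 1 - (u : T) ∈ maximalIdeal T := by
      rw [hu']
      have : α - 1 - (α - β) = β - 1 := by ring
      rw [this]
      exact hβ1
    exact isUnit_of_sub_mem u.isUnit h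

end Fermat.Agent.S33P.Red63
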