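/-
S33 programme, p-old half (helper63): conversion of the residual hypothesis.

A2'(e) (helper3/helper95) delivers the eigen-decomposition-free form
  `∀ σ ∈ I, ∀ v, ∃ w, (ρ σ v - v) - (ρ σ0 w - w) ∈ 𝔪 V`;
`Red63/OldMod.quadModAt_IA` consumes the form relative to an eigenbasis of `ρ σ0`
  `∀ σ ∈ I, ∀ v, ρ σ v - v ∈ T b 0 + 𝔪 V`.
Mathlib only.
-/
import Mathlib

set_option autoImplicit false

namespace Fermat.Agent.S33P.Red63

open IsLocalRing

variable {T : Type*} [CommRing T] [IsLocalRing T] {V : Type*} [AddCommGroup V] [Module T V]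
  {G : Type*} [Group G]

/-- `(ρ σ0 - 1) V ⊆ T b 0 + 𝔪 V` for an eigenbasis with second eigenvalue `≡ 1`. -/
theorem sub_mem_of_eigenbasis (f : Module.End T V) (b : Module.Basis (Fin 2) T V) (α β : T)
    (hα : f (b 0) = α • b 0) (hβ : f (b 1) = β • b 1) (hβ1 : β - 1 ∈ maximalIdeal T) (w : V) :
    f w - w ∈ (T ∙ b 0) ⊔ (maximalIdeal T • ⊤ : Submodule T V) := by
  have hsum := b.sum_repr w
  rw [Fin.sum_univ_two] at hsum
  have h1 : f w - w = (b.repr w 0 * (α - 1)) • b 0 + (β - 1) • (b.repr w 1 • b 1) := by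
    conv_lhs => rw [← hsum]
    rw [map_add, map_smul, map_smul, hα, hβ]
    module
  rw [h1]
  exact Submodule.add_mem _
    (Submodule.mem_sup_left (Submodule.smul_mem _ _ (Submodule.mem_span_singleton_self _)))
    (Submodule.mem_sup_right (Submodule.smul_mem_smul hβ1 Submodule.mem_top))

/-- **Conversion of the residual hypothesis** to the eigenbasis form. -/
theorem hres_of_exists (ρ : G →* Module.End T V) (b : Module.Basis (Fin 2) T V) (σ0 : G)
    (α β : T) (hα : ρ σ0 (b 0) = α • b 0) (hβ : ρ σ0 (b 1) = β • b 1)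
    (hβ1 : β - 1 ∈ maximalIdeal T) (I : Subgroup G)
    (h : ∀ σ ∈ I, ∀ v : V, ∃ w : V,
      (ρ σ v - v) - (ρ σ0 w - w) ∈ (maximalIdeal T • ⊤ : Submodule T V)) :
    ∀ σ ∈ I, ∀ v : V, ρ σ v - v ∈ (T ∙ b 0) ⊔ (maximalIdeal T • ⊤ : Submodule T V) := by
  intro σ hσ v
  obtain ⟨w, hw⟩ := h σ hσ v
  have h1 : ρ σ v - v = (ρ σ0 w - w) + ((ρ σ v - v) - (ρ σ0 w - w)) := by abel
  rw [h1]
  exact Submodule.add_mem _ (sub_mem_of_eigenbasis (ρ σ0) b α β hα hβ hβ1 w)
    (Submodule.mem_sup_right hw)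

end Fermat.Agent.S33P.Red63
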