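/-
S33 programme, brick O1' (helper63): the "points reducing to the identity" of a function order
(`Flat44.FunOrder`), compatibility with restriction and quotient, the action of inertia, the
transfer of TW's statement (CE) F2 (`TW/CE46/Toolkit.statementF2`) to function orders, and the
devissage from `p`-torsion to `p`-power torsion.

For `F : FunOrder p M act` (a Hopf order of functions `M → ℚ̄`, `M` a finite `Gal(ℚ̄/ℚ)`-module)

  `red0 F : AddSubgroup M := {x | ∀ b ∈ F.B, ‖padicEmbedding p (b x - b 0)‖ < 1}`.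

* `mem_red0_sub`     : `x ∈ red0 (F.sub S acts hS) ↔ (x : M) ∈ red0 F`;
* `mk_mem_red0_quot` : `x ∈ red0 F → mk x ∈ red0 (F.quot S hS actq hq)`;
* `act_sub_mem_red0` : `τ` inertial ⇒ `act (localGaloisToGlobal p τ) x - x ∈ red0 F`;
* `mem_of_mem_red0_of_F2` : `M` killed by `p`, `N ≤ M'` subgroups, `N` inertia-stable, inertia
  trivial on `M'/N` ⇒ `red0 F ⊓ M' ≤ N`   (this is (CE) F2);
* `red0_le_of_chain` : the devissage: `A ≤ red0 F`, a finite filtration of `M` by Galois-stable
  subgroups with graded pieces killed by `p` on which inertia acts trivially modulo `A` ⇒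
  `red0 F ≤ A`.
-/
import Mathlib
import Fermat.Agent.Flat44.Main
import Fermat.Agent.TW.CE46.Toolkit
import Fermat.Agent.TW.B5.Adapt57.FlatTransport

set_option autoImplicit false
set_option linter.unusedSectionVars false
set_option linter.style.haveILetI false
set_option synthInstance.maxHeartbeats 200000

noncomputable section

namespace Fermat.Agent.S33P.Red63

open Fermat.Agent.Flat44 Fermat.Agent.TW.B5.Iface Fermat.Agent.TW.Interface
open Fermat.Agent.TW.B5.Adapt57.FlatTransport Fermat.Agent.TW.CE46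
open scoped TensorProduct

variable {p : ℕ} [Fact p.Prime] {M : Type} [AddCommGroup M] {act : GQ → M → M}

/-! ### The `p`-adic norm on `ℚ̄` -/

/-- the `p`-adic norm on `ℚ̄`, through `padicEmbedding p` -/
def pn (p : ℕ) [Fact p.Prime] (x : Qb) : ℝ := ‖padicEmbedding p x‖

theorem pn_zero : pn p 0 = 0 := by unfold pn; rw [map_zero, norm_zero]

theorem pn_neg (x : Qb) : pn p (-x) = pn p x := by unfold pn; rw [map_neg, norm_neg]

theorem pn_mul (x y : Qb) : pn p (x * y) = pn p x * pn p y := by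
  unfold pn; rw [map_mul, norm_mul]

theorem pn_add_le (x y : Qb) : pn p (x + y) ≤ max (pn p x) (pn p y) := by
  unfold pn; rw [map_add]; exact PadicAlgCl.isNonarchimedean p _ _

theorem pn_nonneg (x : Qb) : 0 ≤ pn p x := norm_nonneg _

theorem pn_add_lt {x y : Qb} (hx : pn p x < 1) (hy : pn p y < 1) : pn p (x + y) < 1 :=
  (pn_add_le x y).trans_lt (max_lt hx hy)

theorem pn_sub_lt {x y : Qb} (hx : pn p x < 1) (hy : pn p y < 1) : pn p (x - y) < 1 := by
  rw [sub_eq_add_neg]; exact pn_add_lt hx (by rwa [pn_neg])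

theorem pn_sub_comm (x y : Qb) : pn p (x - y) = pn p (y - x) := by rw [← pn_neg, neg_sub]

theorem pn_mul_lt_left {x y : Qb} (hx : pn p x < 1) (hy : pn p y ≤ 1) : pn p (x * y) < 1 := by
  rw [pn_mul]
  calc pn p x * pn p y ≤ pn p x * 1 := mul_le_mul_of_nonneg_left hy (pn_nonneg x)
    _ = pn p x := mul_one _
    _ < 1 := hx

theorem pn_mul_lt_right {x y : Qb} (hx : pn p x ≤ 1) (hy : pn p y < 1) : pn p (x * y) < 1 := by
  rw [mul_comm]; exact pn_mul_lt_left hy hx

theorem pn_sum_lt {ι : Type*} (s : Finset ι) (f : ι → Qb) (h : ∀ i ∈ s, pn p (f i) < 1) :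
    pn p (∑ i ∈ s, f i) < 1 := by
  classical
  induction s using Finset.induction_on with
  | empty => rw [Finset.sum_empty, pn_zero]; exact one_pos
  | insert a s ha ih =>
    rw [Finset.sum_insert ha]
    exact pn_add_lt (h a (Finset.mem_insert_self a s))
      (ih fun i hi => h i (Finset.mem_insert_of_mem hi))

/-- elements integral over `ℤ_(p)` have norm `≤ 1` -/
theorem pn_le_one_of_isIntegral {x : Qb} (hx : IsIntegral (Zp p) x) : pn p x ≤ 1 := by
  have h1 : IsIntegral (Zloc p) (embZ p x) := hx.map (embZ p)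
  exact Points.norm_le_one_of_isIntegral (Concrete.norm_algebraMap_le_one p) h1

/-- inertia moves integral elements by less than `1` -/
theorem pn_inertia_sub_lt {τ : Gp p} (hτ : IsInertial p τ) {x : Qb} (hx : pn p x ≤ 1) :
    pn p (localGaloisToGlobal p τ x - x) < 1 := by
  unfold pn
  rw [map_sub, padicEmbedding_localGaloisToGlobal]
  exact hτ _ hx

/-! ### Nearness and `red0` -/

namespace FunOrderRed

variable (F : FunOrder p M act)

/-- `x` and `x'` have the same reduction: all functions of the order take congruent values. -/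
def Near (x x' : M) : Prop := ∀ b ∈ F.B, pn p (b x - b x') < 1

theorem near_refl (x : M) : Near F x x := fun b _ => by
  rw [sub_self, pn_zero]; exact one_pos

theorem Near.symm {x x' : M} (h : Near F x x') : Near F x' x := fun b hb => by
  rw [pn_sub_comm]; exact h b hb

theorem Near.trans {x y z : M} (h1 : Near F x y) (h2 : Near F y z) : Near F x z := fun b hb => by
  have : b x - b z = (b x - b y) + (b y - b z) := by ring
  rw [this]
  exact pn_add_lt (h1 b hb) (h2 b hb)

theorem pn_apply_le_one {b : M → Qb} (hb : b ∈ F.B) (x : M) : pn p (b x) ≤ 1 :=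
  pn_le_one_of_isIntegral (F.isIntegral_apply hb x)

theorem Near.add {x x' y y' : M} (hx : Near F x x') (hy : Near F y y') :
    Near F (x + y) (x' + y') := by
  intro b hb
  obtain ⟨ι, _, u, v, hu, hv, huv⟩ := F.comul_mem b hb
  rw [huv, huv, ← Finset.sum_sub_distrib]
  refine pn_sum_lt _ _ fun i _ => ?_
  have : u i x * v i y - u i x' * v i y' =
      (u i x - u i x') * v i y + u i x' * (v i y - v i y') := by ring
  rw [this]
  exact pn_add_lt (pn_mul_lt_left (hx _ (hu i)) (pn_apply_le_one F (hv i) y))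
    (pn_mul_lt_right (pn_apply_le_one F (hu i) x') (hy _ (hv i)))

theorem Near.neg {x x' : M} (hx : Near F x x') : Near F (-x) (-x') := by
  intro b hb
  have h := hx (fun y => b (-y)) (F.neg_mem b hb)
  exact h

/-- **`Red⁰`**: the points with the same reduction as the origin. -/
def red0 : AddSubgroup M where
  carrier := {x | Near F x 0}
  zero_mem' := near_refl F 0
  add_mem' {x y} hx hy := by
    have := Near.add F hx hy
    rwa [add_zero] at this
  neg_mem' {x} hx := by
    have := Near.neg F hx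
    rwa [neg_zero] at this

theorem mem_red0 {x : M} : x ∈ red0 F ↔ ∀ b ∈ F.B, pn p (b x - b 0) < 1 := Iff.rfl

theorem near_iff_sub_mem {x x' : M} : Near F x x' ↔ x - x' ∈ red0 F := by
  constructor
  · intro h
    have := Near.add F h (near_refl F (-x'))
    rwa [add_neg_cancel, ← sub_eq_add_neg] at this
  · intro h
    have h1 : Near F (x - x') 0 := h
    have := Near.add F h1 (near_refl F x')
    rwa [sub_add_cancel, zero_add] at this

/-- restriction to a stable subgroup -/
theorem mem_red0_sub (S : AddSubgroup M) (acts : GQ → S → S)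
    (hS : ∀ σ (x : S), ((acts σ x : S) : M) = act σ (x : M)) (x : S) :
    x ∈ red0 (F.sub S acts hS) ↔ (x : M) ∈ red0 F := by
  constructor
  · intro h b hb
    have hmem : pullAlg (Zp p) (Subtype.val : S → M) b ∈ (F.sub S acts hS).B :=
      (Subalgebra.mem_map).2 ⟨b, hb, rfl⟩
    have h1 := h (pullAlg (Zp p) (Subtype.val : S → M) b) hmem
    exact h1
  · intro h b' hb'
    obtain ⟨b, hb, hbb'⟩ := (Subalgebra.mem_map).1 hb'
    subst hbb'
    have h1 := h b hb
    exact h1

/-- quotient by a stable subgroup -/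
theorem mk_mem_red0_quot (S : AddSubgroup M) (hS : ∀ σ, ∀ x ∈ S, act σ x ∈ S)
    (actq : GQ → M ⧸ S → M ⧸ S)
    (hq : ∀ σ x, actq σ (QuotientAddGroup.mk x) = QuotientAddGroup.mk (act σ x))
    {x : M} (hx : x ∈ red0 F) :
    (QuotientAddGroup.mk x : M ⧸ S) ∈ red0 (F.quot S hS actq hq) := by
  intro b' hb'
  have hmem : pullAlg (Zp p) (QuotientAddGroup.mk : M → M ⧸ S) b' ∈ F.B := hb'
  have h1 := hx _ hmem
  exact h1

/-- inertia acts trivially modulo `Red⁰` -/
theorem near_act {τ : Gp p} (hτ : IsInertial p τ) (x : M) :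
    Near F (act (localGaloisToGlobal p τ) x) x := by
  intro b hb
  rw [F.equivariant b hb]
  exact pn_inertia_sub_lt hτ (pn_apply_le_one F hb x)

theorem act_sub_mem_red0 {τ : Gp p} (hτ : IsInertial p τ) (x : M) :
    act (localGaloisToGlobal p τ) x - x ∈ red0 F :=
  (near_iff_sub_mem F).1 (near_act F hτ x)

/-- `Red⁰` is stable under the decomposition group (all of `G_p`). -/
theorem act_mem_red0 (τ : Gp p) {x : M} (hx : x ∈ red0 F) :
    act (localGaloisToGlobal p τ) x ∈ red0 F := by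
  intro b hb
  rw [F.equivariant b hb]
  have h0 : b 0 = localGaloisToGlobal p τ (b 0) := by
    have := F.equivariant b hb (localGaloisToGlobal p τ) 0
    rw [F.act_zero] at this
    exact this
  rw [h0, ← map_sub]
  unfold pn
  rw [padicEmbedding_localGaloisToGlobal, Concrete.norm_gal]
  exact hx b hb

/-! ### The local points of the Hopf algebra of a function order -/

section Local

/-- the local point attached to `x : M`: `b ↦ padicEmbedding p (b x)` -/
def pt (x : M) :
    letI := F.hopfAlgebra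
    Pts (p := p) F.B :=
  letI := F.hopfAlgebra
  WithConv.toConv ((embZ p).comp (F.evalHom x))

theorem pt_apply (x : M) (a : F.B) :
    letI := F.hopfAlgebra
    pt F x a = padicEmbedding p ((a : M → Qb) x) := rfl

theorem pt_injective :
    letI := F.hopfAlgebra
    Function.Injective (pt F) := by
  letI := F.hopfAlgebra
  intro x y h
  apply F.evalHom_injective
  refine AlgHom.ext fun a => ?_
  apply (padicEmbedding p).injective
  have h1 : pt F x a = pt F y a := by rw [h]
  exact h1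

theorem pt_surjective :
    letI := F.hopfAlgebra
    Function.Surjective (pt F) := by
  letI := F.hopfAlgebra
  intro f
  obtain ⟨g, hg⟩ := (compEmb_bijective (p := p) F.B).2 f.ofConv
  obtain ⟨x, hx⟩ := F.evalHom_bijective.2 g
  refine ⟨x, ?_⟩
  apply WithConv.ofConv_injective
  show (embZ p).comp (F.evalHom x) = f.ofConv
  rw [hx, ← hg]
  rfl

theorem pt_zero :
    letI := F.hopfAlgebra
    pt F 0 = 1 := by
  letI := F.hopfAlgebra
  apply WithConv.ofConv_injective
  refine AlgHom.ext fun a => ?_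
  show padicEmbedding p ((a : M → Qb) 0) = algebraMap (Zloc p) (Kbar p) (Coalgebra.counit a)
  have h1 : (Coalgebra.counit a : Zp p) = F.counitHom a := rfl
  rw [h1, ← F.algebraMap_counitHom a]
  exact ((embZ p).commutes (F.counitHom a))

theorem pt_add (x y : M) :
    letI := F.hopfAlgebra
    pt F (x + y) = pt F x * pt F y := by
  letI := F.hopfAlgebra
  apply WithConv.ofConv_injective
  refine AlgHom.ext fun a => ?_
  have h1 : (pt F x * pt F y).ofConv a = (pt F x * pt F y) a := rfl
  rw [h1, AlgHom.convMul_apply]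
  show padicEmbedding p ((a : M → Qb) (x + y)) =
    Algebra.TensorProduct.lift ((embZ p).comp (F.evalHom x)) ((embZ p).comp (F.evalHom y))
      (fun _ _ => Commute.all _ _) (F.comulHom a)
  have h2 : ∀ t : F.B ⊗[Zp p] F.B,
      Algebra.TensorProduct.lift ((embZ p).comp (F.evalHom x)) ((embZ p).comp (F.evalHom y))
        (fun _ _ => Commute.all _ _) t = padicEmbedding p (F.iota2 t (x, y)) := by
    intro t
    induction t using TensorProduct.induction_on with
    | zero => simp
    | tmul a a' =>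
      rw [Algebra.TensorProduct.lift_tmul, FunOrder.iota2_tmul]
      show padicEmbedding p _ * padicEmbedding p _ = _
      rw [← map_mul]
      rfl
    | add s t hs ht => rw [map_add, map_add, hs, ht, Pi.add_apply, map_add]
  rw [h2, F.iota2_comulHom_apply]

theorem pt_nsmul (n : ℕ) (x : M) :
    letI := F.hopfAlgebra
    pt F (n • x) = pt F x ^ n := by
  letI := F.hopfAlgebra
  induction n with
  | zero => rw [zero_smul, pow_zero, pt_zero]
  | succ n ih => rw [succ_nsmul, pt_add, ih, pow_succ]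

theorem pt_mem_red0_iff (x : M) :
    letI := F.hopfAlgebra
    pt F x ∈ Fermat.Agent.TW.B5.Iface.red0 (p := p) F.B ↔ x ∈ red0 F := by
  letI := F.hopfAlgebra
  have key : ∀ a : F.B, pt F x a - algebraMap (Zloc p) (Kbar p) (Coalgebra.counit a) =
      padicEmbedding p ((a : M → Qb) x - (a : M → Qb) 0) := by
    intro a
    have h1 : algebraMap (Zloc p) (Kbar p) (Coalgebra.counit a) =
        padicEmbedding p ((a : M → Qb) 0) := by
      have h0 := congrArg (fun f : Pts (p := p) F.B => f a) (pt_zero F)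
      exact h0.symm
    rw [h1, map_sub]
    rfl
  constructor
  · intro h b hb
    have := h ⟨b, hb⟩
    rw [key] at this
    exact this
  · intro h a
    rw [key]
    exact h a.1 a.2

theorem isGalConj_pt {τ : Gp p} {x : M}
    (g : letI := F.hopfAlgebra; Pts (p := p) F.B)
    (h : letI := F.hopfAlgebra; IsGalConj F.B τ (pt F x) g) :
    g = pt F (act (localGaloisToGlobal p τ) x) := by
  letI := F.hopfAlgebra
  apply WithConv.ofConv_injective
  refine AlgHom.ext fun a => ?_
  have h1 : g.ofConv a = g a := rfl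
  rw [h1, h a]
  show τ (padicEmbedding p ((a : M → Qb) x)) =
    padicEmbedding p ((a : M → Qb) (act (localGaloisToGlobal p τ) x))
  rw [F.equivariant _ a.2, padicEmbedding_localGaloisToGlobal]

end Local

/-- **(CE) F2 for function orders.**  `M` killed by `p` (odd), `N ≤ M'` subgroups of `M`, `N` stable
under inertia, inertia acting trivially on `M' / N`: then `Red⁰ ∩ M' ⊆ N`. -/
theorem mem_of_mem_red0_of_F2 (hp2 : p ≠ 2) (hkill : ∀ x : M, p • x = 0)
    (M' N : AddSubgroup M) (hNM : N ≤ M')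
    (hN : ∀ τ : Gp p, IsInertial p τ → ∀ x ∈ N, act (localGaloisToGlobal p τ) x ∈ N)
    (hMN : ∀ τ : Gp p, IsInertial p τ → ∀ x ∈ M', act (localGaloisToGlobal p τ) x - x ∈ N)
    {x : M} (hxM : x ∈ M') (hx0 : x ∈ red0 F) : x ∈ N := by
  letI := F.hopfAlgebra
  haveI : Coalgebra.IsCocomm (Zloc p) F.B := F.isCocomm
  have hF2 := Toolkit.statementF2 p hp2 F.B
    (fun f => by
      obtain ⟨y, rfl⟩ := pt_surjective F f
      rw [← pt_nsmul, hkill, pt_zero])
    (pt F '' (M' : Set M)) (pt F '' (N : Set M))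
    ⟨0, N.zero_mem, pt_zero F⟩
    (by
      rintro _ ⟨a, ha, rfl⟩ _ ⟨b, hb, rfl⟩
      exact ⟨a + b, N.add_mem ha hb, pt_add F a b⟩)
    ⟨0, M'.zero_mem, pt_zero F⟩
    (by
      rintro _ ⟨a, ha, rfl⟩ _ ⟨b, hb, rfl⟩
      exact ⟨a + b, M'.add_mem ha hb, pt_add F a b⟩)
    (by
      rintro _ ⟨a, ha, rfl⟩
      exact ⟨a, hNM ha, rfl⟩)
    (by
      rintro τ hτ _ ⟨a, ha, rfl⟩ g hg
      exact ⟨_, hN τ hτ a ha, (isGalConj_pt F g hg).symm⟩)
    (by
      rintro τ hτ _ ⟨a, ha, rfl⟩ g hg
      refine ⟨pt F (act (localGaloisToGlobal p τ) a - a), ⟨_, hMN τ hτ a ha, rfl⟩, ?_⟩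
      rw [isGalConj_pt F g hg, ← pt_add, add_sub_cancel])
    (pt F x) ⟨x, hxM, rfl⟩ ((pt_mem_red0_iff F x).2 hx0)
  obtain ⟨n, hn, hnx⟩ := hF2
  rwa [← pt_injective F hnx]

/-! ### The devissage -/

/-- **One step of the devissage.**  `S1 ≤ S` Galois-stable subgroups with `p • S ≤ S1`, `A ≤ Red⁰`, and
inertia acts on `S` trivially modulo `(A ⊓ S) ⊔ S1`: then `Red⁰ ⊓ S ≤ (A ⊓ S) ⊔ S1`. -/
theorem mem_sup_of_mem_red0 (hp2 : p ≠ 2) (A S S1 : AddSubgroup M)
    (hstabS : ∀ σ : GQ, ∀ x ∈ S, act σ x ∈ S)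
    (hstabS1 : ∀ σ : GQ, ∀ x ∈ S1, act σ x ∈ S1)
    (hpS : ∀ x ∈ S, p • x ∈ S1)
    (hin : ∀ τ : Gp p, IsInertial p τ → ∀ x ∈ S,
      act (localGaloisToGlobal p τ) x - x ∈ (A ⊓ S) ⊔ S1)
    {y : M} (hyS : y ∈ S) (hy0 : y ∈ red0 F) : y ∈ (A ⊓ S) ⊔ S1 := by
  classical
  -- the restricted order
  let acts : GQ → S → S := fun σ x => ⟨act σ (x : M), hstabS σ _ x.2⟩
  have hS : ∀ σ (x : S), ((acts σ x : S) : M) = act σ (x : M) := fun _ _ => rfl
  let FS : FunOrder p S acts := F.sub S acts hS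
  -- the quotient order
  let S' : AddSubgroup S := S1.addSubgroupOf S
  have hS' : ∀ σ, ∀ x ∈ S', acts σ x ∈ S' := by
    intro σ x hx
    rw [AddSubgroup.mem_addSubgroupOf] at hx ⊢
    exact hstabS1 σ _ hx
  let actq : GQ → S ⧸ S' → S ⧸ S' := fun σ =>
    QuotientAddGroup.map S' S' (AddMonoidHom.mk' (acts σ) (FS.act_add σ)) (fun x hx => hS' σ x hx)
  have hq : ∀ σ x, actq σ (QuotientAddGroup.mk x) = QuotientAddGroup.mk (acts σ x) :=
    fun _ _ => rfl
  let FQ : FunOrder p (S ⧸ S') actq := FS.quot S' hS' actq hq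
  have hkillQ : ∀ q : S ⧸ S', p • q = 0 := by
    intro q
    induction q using QuotientAddGroup.induction_on with
    | H x =>
      rw [← QuotientAddGroup.mk_nsmul, QuotientAddGroup.eq_zero_iff,
        AddSubgroup.mem_addSubgroupOf]
      exact hpS _ x.2
  let N : AddSubgroup (S ⧸ S') := ((A ⊓ S).addSubgroupOf S).map (QuotientAddGroup.mk' S')
  have key1 : ∀ (z : M) (hz : z ∈ S), z ∈ (A ⊓ S) ⊔ S1 →
      (QuotientAddGroup.mk (⟨z, hz⟩ : S) : S ⧸ S') ∈ N := by
    intro z hz hzs
    obtain ⟨a, ha, f, hf, rfl⟩ := AddSubgroup.mem_sup.1 hzs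
    refine AddSubgroup.mem_map.2 ⟨⟨a, ha.2⟩, ?_, ?_⟩
    · rw [AddSubgroup.mem_addSubgroupOf]
      exact ha
    · show (QuotientAddGroup.mk (⟨a, ha.2⟩ : S) : S ⧸ S') = QuotientAddGroup.mk ⟨a + f, hz⟩
      rw [QuotientAddGroup.eq, AddSubgroup.mem_addSubgroupOf]
      show -a + (a + f) ∈ S1
      rwa [neg_add_cancel_left]
  have key2 : ∀ (z : M) (hz : z ∈ S), (QuotientAddGroup.mk (⟨z, hz⟩ : S) : S ⧸ S') ∈ N →
      z ∈ (A ⊓ S) ⊔ S1 := by
    intro z hz hzN
    obtain ⟨s, hs, hsz⟩ := AddSubgroup.mem_map.1 hzN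
    rw [AddSubgroup.mem_addSubgroupOf] at hs
    have h1 : (QuotientAddGroup.mk s : S ⧸ S') = QuotientAddGroup.mk ⟨z, hz⟩ := hsz
    rw [QuotientAddGroup.eq, AddSubgroup.mem_addSubgroupOf] at h1
    have h2 : -(s : M) + z ∈ S1 := h1
    have h3 : z = (s : M) + (-(s : M) + z) := by abel
    rw [h3]
    exact AddSubgroup.add_mem _ (AddSubgroup.mem_sup_left hs) (AddSubgroup.mem_sup_right h2)
  have hred : (QuotientAddGroup.mk (⟨y, hyS⟩ : S) : S ⧸ S') ∈ red0 FQ :=
    mk_mem_red0_quot FS S' hS' actq hq ((mem_red0_sub F S acts hS ⟨y, hyS⟩).2 hy0)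
  have hN : ∀ τ : Gp p, IsInertial p τ → ∀ q ∈ N, actq (localGaloisToGlobal p τ) q ∈ N := by
    intro τ hτ q hqN
    obtain ⟨s, hs, rfl⟩ := AddSubgroup.mem_map.1 hqN
    rw [AddSubgroup.mem_addSubgroupOf] at hs
    refine key1 (act (localGaloisToGlobal p τ) (s : M)) (hstabS _ _ s.2) ?_
    have h1 : act (localGaloisToGlobal p τ) (s : M) =
        (s : M) + (act (localGaloisToGlobal p τ) (s : M) - (s : M)) := by abel
    rw [h1]
    exact AddSubgroup.add_mem _ (AddSubgroup.mem_sup_left hs) (hin τ hτ _ s.2)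
  have hMN : ∀ τ : Gp p, IsInertial p τ → ∀ q ∈ (⊤ : AddSubgroup (S ⧸ S')),
      actq (localGaloisToGlobal p τ) q - q ∈ N := by
    intro τ hτ q _
    induction q using QuotientAddGroup.induction_on with
    | H s =>
      exact key1 (act (localGaloisToGlobal p τ) (s : M) - (s : M))
        (S.sub_mem (hstabS _ _ s.2) s.2) (hin τ hτ _ s.2)
  exact key2 y hyS
    (mem_of_mem_red0_of_F2 FQ hp2 hkillQ ⊤ N le_top hN hMN (AddSubgroup.mem_top _) hred)

/-- **The devissage.**  `A ≤ Red⁰`; `Fil` a finite decreasing filtration of `M` by Galois-stable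
subgroups, from `⊤` to `⊥`, with `p • Fil i ≤ Fil (i+1)`, on whose steps inertia acts trivially modulo
`A`: then `Red⁰ ≤ A` (hence `Red⁰ = A`). -/
theorem red0_le_of_chain (hp2 : p ≠ 2) (A : AddSubgroup M) (hA : A ≤ red0 F)
    (k : ℕ) (Fil : ℕ → AddSubgroup M) (h0 : Fil 0 = ⊤) (hk : Fil k = ⊥)
    (hstab : ∀ i (σ : GQ), ∀ x ∈ Fil i, act σ x ∈ Fil i)
    (hpF : ∀ i, ∀ x ∈ Fil i, p • x ∈ Fil (i + 1))
    (hin : ∀ i (τ : Gp p), IsInertial p τ → ∀ x ∈ Fil i,
      act (localGaloisToGlobal p τ) x - x ∈ (A ⊓ Fil i) ⊔ Fil (i + 1)) :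
    red0 F ≤ A := by
  have claim : ∀ i, ∀ x ∈ red0 F, ∃ a ∈ A, x - a ∈ Fil i := by
    intro i
    induction i with
    | zero =>
      intro x _
      exact ⟨0, A.zero_mem, by rw [h0]; exact AddSubgroup.mem_top _⟩
    | succ i ih =>
      intro x hx
      obtain ⟨a, ha, hxa⟩ := ih x hx
      have hy0 : x - a ∈ red0 F := (red0 F).sub_mem hx (hA ha)
      have h1 := mem_sup_of_mem_red0 F hp2 A (Fil i) (Fil (i + 1)) (hstab i) (hstab (i + 1))
        (hpF i) (hin i) hxa hy0
      obtain ⟨a', ha', f, hf, hsum⟩ := AddSubgroup.mem_sup.1 h1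
      refine ⟨a + a', A.add_mem ha ha'.1, ?_⟩
      have h2 : x - (a + a') = f := by
        rw [← sub_sub, ← hsum, add_sub_cancel_left]
      rw [h2]
      exact hf
  intro x hx
  obtain ⟨a, ha, hxa⟩ := claim k x hx
  rw [hk, AddSubgroup.mem_bot, sub_eq_zero] at hxa
  rw [hxa]
  exact ha

end FunOrderRed

end Fermat.Agent.S33P.Red63
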