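/-
S33 programme, brick O3' (helper63): FLAT ⇒ ORDINARY for the `p`-old components.

`Λ` free of rank 2 (basis `b`) over a local ring `B` finite over `ℤ_p` (e.g. `B = T/𝔭`), with a
`B`-linear action `ρ` of `Gal(ℚ̄/ℚ)`; `σ0` inertial with `ρ σ0 (b 0) = α • b 0`, `α - 1` a unit;
`hres`: inertia acts trivially on `Λ / (B b 0 + 𝔪 Λ)`; and every `Λ / p^n Λ` carries a function order
(`Flat44.FunOrder`, i.e. a finite flat model).  Then inertia acts trivially on `Λ / B b 0`, and (with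
`det = ε` on inertia) `(ρ τ - ε τ)(ρ σ - 1) = 0` for inertial `σ, τ`.

Proof: `Red63/Red0.red0_le_of_chain` (devissage of TW's (CE) F2) with `A := ` image of `B b 0`,
`Fil i := ` image of `𝔪^i Λ`.
-/
import Mathlib
import Fermat.Agent.S33P.Red63.Red0

set_option autoImplicit false
set_option linter.unusedSectionVars false
set_option linter.style.haveILetI false

noncomputable section

namespace Fermat.Agent.S33P.Red63

open Fermat.Agent.Flat44 Fermat.Agent.TW.B5.Iface IsLocalRing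
open FunOrderRed

/-! ### Module-theoretic lemmas -/

section Alg

variable {B : Type} [CommRing B] {Λ : Type} [AddCommGroup Λ] [Module B Λ]

/-- linear functionals send `I • ⊤` into `I` -/
theorem apply_mem_of_mem_smul_top (I : Ideal B) (f : Λ →ₗ[B] B) {w : Λ}
    (hw : w ∈ (I • ⊤ : Submodule B Λ)) : f w ∈ I := by
  refine Submodule.smul_induction_on hw (fun r hr m _ => ?_) (fun x y hx hy => ?_)
  · rw [map_smul, smul_eq_mul]
    exact I.mul_mem_right _ hr
  · rw [map_add]
    exact I.add_mem hx hy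

/-- a `B`-linear endomorphism preserves `I • ⊤` -/
theorem end_mem_smul_top (I : Ideal B) (f : Module.End B Λ) {w : Λ}
    (hw : w ∈ (I • ⊤ : Submodule B Λ)) : f w ∈ (I • ⊤ : Submodule B Λ) := by
  refine Submodule.smul_induction_on hw (fun r hr m _ => ?_) (fun x y hx hy => ?_)
  · rw [map_smul]
    exact Submodule.smul_mem_smul hr Submodule.mem_top
  · rw [map_add]
    exact Submodule.add_mem _ hx hy

theorem pow_succ_smul_top (I : Ideal B) (i : ℕ) :
    (I ^ (i + 1) • ⊤ : Submodule B Λ) = I • (I ^ i • ⊤ : Submodule B Λ) := by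
  rw [pow_succ', mul_smul]

/-- `hres` propagates to the powers of the ideal. -/
theorem sub_mem_of_mem_pow_smul_top (I : Ideal B) (f : Module.End B Λ) (b0 : Λ)
    (hres : ∀ v : Λ, f v - v ∈ (B ∙ b0) ⊔ (I • ⊤ : Submodule B Λ)) (i : ℕ) {y : Λ}
    (hy : y ∈ (I ^ i • ⊤ : Submodule B Λ)) :
    f y - y ∈ (I ^ i • (B ∙ b0) : Submodule B Λ) ⊔ (I ^ (i + 1) • ⊤ : Submodule B Λ) := by
  refine Submodule.smul_induction_on hy (fun r hr v _ => ?_) (fun x y hx hy => ?_)
  · obtain ⟨a, ha, w, hw, hsum⟩ := Submodule.mem_sup.1 (hres v)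
    have h1 : f (r • v) - r • v = r • a + r • w := by
      rw [map_smul, ← smul_sub, ← hsum, smul_add]
    rw [h1]
    refine Submodule.add_mem _ (Submodule.mem_sup_left (Submodule.smul_mem_smul hr ha))
      (Submodule.mem_sup_right ?_)
    rw [pow_succ, mul_smul]
    exact Submodule.smul_mem_smul hr hw
  · have h1 : f (x + y) - (x + y) = (f x - x) + (f y - y) := by
      rw [map_add]; abel
    rw [h1]
    exact Submodule.add_mem _ hx hy

end Alg

/-! ### One level -/

section Level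

variable {p : ℕ} [Fact p.Prime] {B : Type} [CommRing B] [IsLocalRing B] [IsNoetherianRing B]
  {Λ : Type} [AddCommGroup Λ] [Module B Λ] [Module.Finite B Λ]

/-- **One level.**  `J ≤ Λ` a `B`-submodule such that `Λ / J` (presented as `π : Λ ↠ Q`) carries a
function order; `σ0` inertial scaling `b0` by `α`, `α - 1` a unit; inertia trivial on
`Λ / (B b0 + 𝔪 Λ)`.  Then inertia is trivial on `Λ / (B b0 + J)`. -/
theorem sub_mem_sup_of_funOrder (hp2 : p ≠ 2) (hpB : (p : B) ∈ maximalIdeal B)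
    (ρ : GQ →* Module.End B Λ) (b0 : Λ)
    (σ0 : Gp p) (hσ0 : IsInertial p σ0) (α : B)
    (hα : ρ (localGaloisToGlobal p σ0) b0 = α • b0) (hα1 : IsUnit (α - 1))
    (hres : ∀ τ : Gp p, IsInertial p τ → ∀ v : Λ,
      ρ (localGaloisToGlobal p τ) v - v ∈ (B ∙ b0) ⊔ (maximalIdeal B • ⊤ : Submodule B Λ))
    (J : Submodule B Λ)
    {Q : Type} [AddCommGroup Q] {actQ : GQ → Q → Q} (π : Λ →+ Q) (hπ : Function.Surjective π)
    (hker : ∀ v, π v = 0 ↔ v ∈ J) (heq : ∀ g v, π (ρ g v) = actQ g (π v))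
    (F : FunOrder p Q actQ) :
    ∀ τ : Gp p, IsInertial p τ → ∀ v : Λ,
      ρ (localGaloisToGlobal p τ) v - v ∈ (B ∙ b0) ⊔ J := by
  classical
  haveI : Finite Q := F.finite_M
  -- the subgroups of `Q`
  let A : AddSubgroup Q := (B ∙ b0).toAddSubgroup.map π
  let Fil : ℕ → AddSubgroup Q := fun i =>
    (maximalIdeal B ^ i • ⊤ : Submodule B Λ).toAddSubgroup.map π
  have hmemA : ∀ y ∈ (B ∙ b0), π y ∈ A := fun y hy => ⟨y, hy, rfl⟩
  have hmemFil : ∀ i, ∀ y ∈ (maximalIdeal B ^ i • ⊤ : Submodule B Λ), π y ∈ Fil i :=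
    fun i y hy => ⟨y, hy, rfl⟩
  -- (1) `A ≤ Red⁰`
  have hA : A ≤ red0 F := by
    rintro _ ⟨y, hy, rfl⟩
    obtain ⟨c, rfl⟩ := Submodule.mem_span_singleton.1 hy
    obtain ⟨u, hu⟩ := hα1
    have hc : c * ↑u⁻¹ * α - c * ↑u⁻¹ = c := by
      calc c * ↑u⁻¹ * α - c * ↑u⁻¹ = c * (↑u⁻¹ * (α - 1)) := by ring
        _ = c * (↑u⁻¹ * ↑u) := by rw [hu]
        _ = c := by rw [Units.inv_mul, mul_one]
    have h1 : ρ (localGaloisToGlobal p σ0) ((c * ↑u⁻¹) • b0) - (c * ↑u⁻¹) • b0 = c • b0 := by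
      rw [map_smul, hα, smul_smul, ← sub_smul, hc]
    have h2 := act_sub_mem_red0 F hσ0 (π ((c * ↑u⁻¹) • b0))
    rw [← heq, ← map_sub, h1] at h2
    exact h2
  -- (2) the filtration
  have h0 : Fil 0 = ⊤ := by
    rw [eq_top_iff]
    intro x _
    obtain ⟨y, rfl⟩ := hπ x
    refine hmemFil 0 y ?_
    rw [pow_zero, Ideal.one_eq_top, Submodule.top_smul]
    exact Submodule.mem_top
  have hanti : ∀ i, Fil (i + 1) ≤ Fil i := by
    intro i
    rintro _ ⟨y, hy, rfl⟩
    exact hmemFil i y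
      (Submodule.smul_mono_left (Ideal.pow_le_pow_right (Nat.le_succ i)) hy)
  have hstabil : ∃ k, Fil k = Fil (k + 1) := by
    by_contra hne
    push Not at hne
    have hlt : ∀ k, Nat.card (Fil (k + 1)) < Nat.card (Fil k) := by
      intro k
      by_contra hge
      push Not at hge
      exact hne k (AddSubgroup.eq_of_le_of_card_ge (hanti k) hge).symm
    have hbound : ∀ k, Nat.card (Fil k) + k ≤ Nat.card (Fil 0) := by
      intro k
      induction k with
      | zero => simp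
      | succ k ih =>
        have := hlt k
        omega
    have := hbound (Nat.card (Fil 0) + 1)
    omega
  obtain ⟨k, hk'⟩ := hstabil
  have hle : (maximalIdeal B ^ k • ⊤ : Submodule B Λ) ≤ J := by
    refine Submodule.le_of_le_smul_of_le_jacobson_bot (I := maximalIdeal B)
      (IsNoetherian.noetherian _) ?_ ?_
    · rw [IsLocalRing.jacobson_eq_maximalIdeal ⊥ bot_ne_top]
    · intro y hy
      have h1 : π y ∈ Fil (k + 1) := by
        rw [← hk']
        exact hmemFil k y hy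
      obtain ⟨z, hz, hzy⟩ := h1
      have h2 : y - z ∈ J := by
        rw [← hker, map_sub, hzy, sub_self]
      have h3 : y = (y - z) + z := by abel
      rw [h3]
      refine Submodule.add_mem _ (Submodule.mem_sup_left h2) (Submodule.mem_sup_right ?_)
      rw [← pow_succ_smul_top]
      exact hz
  have hk : Fil k = ⊥ := by
    rw [eq_bot_iff]
    rintro _ ⟨y, hy, rfl⟩
    rw [AddSubgroup.mem_bot, hker]
    exact hle hy
  -- (3) stability, `p`, inertia
  have hstab : ∀ i (σ : GQ), ∀ x ∈ Fil i, actQ σ x ∈ Fil i := by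
    rintro i σ _ ⟨y, hy, rfl⟩
    rw [← heq]
    exact hmemFil i _ (end_mem_smul_top _ (ρ σ) hy)
  have hpF : ∀ i, ∀ x ∈ Fil i, p • x ∈ Fil (i + 1) := by
    rintro i _ ⟨y, hy, rfl⟩
    rw [← map_nsmul]
    refine hmemFil (i + 1) _ ?_
    rw [pow_succ_smul_top, ← Nat.cast_smul_eq_nsmul B]
    exact Submodule.smul_mem_smul hpB hy
  have hin : ∀ i (τ : Gp p), IsInertial p τ → ∀ x ∈ Fil i,
      actQ (localGaloisToGlobal p τ) x - x ∈ (A ⊓ Fil i) ⊔ Fil (i + 1) := by
    rintro i τ hτ _ ⟨y, hy, rfl⟩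
    rw [← heq, ← map_sub]
    obtain ⟨a, ha, w, hw, hsum⟩ := Submodule.mem_sup.1
      (sub_mem_of_mem_pow_smul_top (maximalIdeal B) (ρ (localGaloisToGlobal p τ)) b0
        (hres τ hτ) i hy)
    rw [← hsum, map_add]
    refine AddSubgroup.add_mem _ (AddSubgroup.mem_sup_left ⟨?_, ?_⟩)
      (AddSubgroup.mem_sup_right (hmemFil (i + 1) w hw))
    · exact hmemA a (Submodule.smul_le_right ha)
    · exact hmemFil i a (Submodule.smul_mono le_rfl le_top ha)
  -- the devissage
  have hred : red0 F ≤ A := red0_le_of_chain F hp2 A hA k Fil h0 hk hstab hpF hin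
  intro τ hτ v
  have h1 : π (ρ (localGaloisToGlobal p τ) v - v) ∈ A := by
    rw [map_sub, heq]
    exact hred (act_sub_mem_red0 F hτ (π v))
  obtain ⟨a, ha, hav⟩ := h1
  have h2 : ρ (localGaloisToGlobal p τ) v - v - a ∈ J := by
    rw [← hker, map_sub, hav, sub_self]
  have h3 : ρ (localGaloisToGlobal p τ) v - v = a + (ρ (localGaloisToGlobal p τ) v - v - a) := by
    abel
  rw [h3]
  exact Submodule.add_mem _ (Submodule.mem_sup_left ha) (Submodule.mem_sup_right h2)

end Level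

/-! ### The final statement -/

section Final

variable {p : ℕ} [Fact p.Prime] {B : Type} [CommRing B] [IsLocalRing B] [Algebra ℤ_[p] B]
  [Module.Finite ℤ_[p] B] {Λ : Type} [AddCommGroup Λ] [Module B Λ]

/-- a ring finite over `ℤ_p` is noetherian -/
theorem isNoetherianRing_of_finite_padic (p : ℕ) [Fact p.Prime] (B : Type) [CommRing B]
    [Algebra ℤ_[p] B] [Module.Finite ℤ_[p] B] : IsNoetherianRing B := by
  haveI : IsNoetherian ℤ_[p] B := isNoetherian_of_isNoetherianRing_of_finite ℤ_[p] B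
  exact isNoetherian_of_tower ℤ_[p] inferInstance

/-- **FLAT ⇒ ORDINARY, the line.**  Inertia acts trivially on `Λ / B b 0`. -/
theorem sub_mem_span_of_funOrders (hp2 : p ≠ 2) (hpB : (p : B) ∈ maximalIdeal B)
    (ρ : GQ →* Module.End B Λ) (b : Module.Basis (Fin 2) B Λ)
    (σ0 : Gp p) (hσ0 : IsInertial p σ0) (α : B)
    (hα : ρ (localGaloisToGlobal p σ0) (b 0) = α • b 0) (hα1 : IsUnit (α - 1))
    (hres : ∀ τ : Gp p, IsInertial p τ → ∀ v : Λ,
      ρ (localGaloisToGlobal p τ) v - v ∈ (B ∙ b 0) ⊔ (maximalIdeal B • ⊤ : Submodule B Λ))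
    (hflat : ∀ n : ℕ, ∃ (Q : Type) (_ : AddCommGroup Q) (actQ : GQ → Q → Q) (π : Λ →+ Q),
      Function.Surjective π ∧
      (∀ v, π v = 0 ↔ v ∈ (Ideal.span {(p : B) ^ n} • ⊤ : Submodule B Λ)) ∧
      (∀ g v, π (ρ g v) = actQ g (π v)) ∧ Nonempty (FunOrder p Q actQ)) :
    ∀ τ : Gp p, IsInertial p τ → ∀ v : Λ, ρ (localGaloisToGlobal p τ) v - v ∈ B ∙ b 0 := by
  haveI : IsNoetherianRing B := isNoetherianRing_of_finite_padic p B
  haveI : Module.Finite B Λ := Module.Finite.of_basis b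
  intro τ hτ v
  set w : Λ := ρ (localGaloisToGlobal p τ) v - v with hw
  -- the second coordinate of `w` is divisible by every power of `p`
  have hcoord : ∀ n : ℕ, b.coord 1 w ∈ Ideal.span {(p : B) ^ n} := by
    intro n
    obtain ⟨Q, iQ, actQ, π, hπ, hker, heq, ⟨F⟩⟩ := hflat n
    have h1 := sub_mem_sup_of_funOrder hp2 hpB ρ (b 0) σ0 hσ0 α hα hα1 hres
      (Ideal.span {(p : B) ^ n} • ⊤ : Submodule B Λ) π hπ hker heq F τ hτ v
    obtain ⟨a, ha, z, hz, hsum⟩ := Submodule.mem_sup.1 h1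
    obtain ⟨c, rfl⟩ := Submodule.mem_span_singleton.1 ha
    rw [hw, ← hsum, map_add, map_smul, Module.Basis.coord_apply, Module.Basis.repr_self,
      Finsupp.single_apply, if_neg (by decide), smul_zero, zero_add]
    exact apply_mem_of_mem_smul_top _ (b.coord 1) hz
  have hzero : b.coord 1 w = 0 := by
    have hne : maximalIdeal B ≠ ⊤ := Ideal.IsPrime.ne_top'
    have hkrull := Ideal.iInf_pow_eq_bot_of_isLocalRing (maximalIdeal B) hne
    have h2 : b.coord 1 w ∈ (⨅ i : ℕ, maximalIdeal B ^ i) := by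
      rw [Ideal.mem_iInf]
      intro n
      have h3 : Ideal.span {(p : B) ^ n} ≤ maximalIdeal B ^ n := by
        rw [← Ideal.span_singleton_pow]
        exact Ideal.pow_right_mono ((Ideal.span_singleton_le_iff_mem _).2 hpB) n
      exact h3 (hcoord n)
    rw [hkrull] at h2
    exact h2
  have hsum := b.sum_repr w
  rw [Fin.sum_univ_two] at hsum
  have h1 : b.repr w 1 = 0 := hzero
  rw [h1, zero_smul, add_zero] at hsum
  rw [← hsum]
  exact Submodule.smul_mem _ _ (Submodule.mem_span_singleton_self _)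

/-- **FLAT ⇒ ORDINARY** for the `p`-old components: the line `B b 0` carries the inertia action up to
the trivial quotient, and (with `det = ε` on inertia) the quadratic identity holds. -/
theorem quadratic_of_funOrders (hp2 : p ≠ 2) (hpB : (p : B) ∈ maximalIdeal B)
    (ρ : GQ →* Module.End B Λ) (b : Module.Basis (Fin 2) B Λ)
    (σ0 : Gp p) (hσ0 : IsInertial p σ0) (α : B)
    (hα : ρ (localGaloisToGlobal p σ0) (b 0) = α • b 0) (hα1 : IsUnit (α - 1))
    (ε : GQ → B)
    (hdet : ∀ τ : Gp p, IsInertial p τ →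
      LinearMap.det (ρ (localGaloisToGlobal p τ)) = ε (localGaloisToGlobal p τ))
    (hres : ∀ τ : Gp p, IsInertial p τ → ∀ v : Λ,
      ρ (localGaloisToGlobal p τ) v - v ∈ (B ∙ b 0) ⊔ (maximalIdeal B • ⊤ : Submodule B Λ))
    (hflat : ∀ n : ℕ, ∃ (Q : Type) (_ : AddCommGroup Q) (actQ : GQ → Q → Q) (π : Λ →+ Q),
      Function.Surjective π ∧
      (∀ v, π v = 0 ↔ v ∈ (Ideal.span {(p : B) ^ n} • ⊤ : Submodule B Λ)) ∧
      (∀ g v, π (ρ g v) = actQ g (π v)) ∧ Nonempty (FunOrder p Q actQ)) :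
    (∀ τ : Gp p, IsInertial p τ → ∀ v : Λ, ρ (localGaloisToGlobal p τ) v - v ∈ B ∙ b 0) ∧
    ∀ σ τ : Gp p, IsInertial p σ → IsInertial p τ →
      (ρ (localGaloisToGlobal p τ) - ε (localGaloisToGlobal p τ) • 1) *
        (ρ (localGaloisToGlobal p σ) - 1) = 0 := by
  have key := sub_mem_span_of_funOrders hp2 hpB ρ b σ0 hσ0 α hα hα1 hres hflat
  refine ⟨key, fun σ τ hσ hτ => ?_⟩
  -- the matrix of `ρ τ`
  obtain ⟨d, hd⟩ := Submodule.mem_span_singleton.1 (key τ hτ (b 0))
  obtain ⟨e, he⟩ := Submodule.mem_span_singleton.1 (key τ hτ (b 1))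
  have h0 : ρ (localGaloisToGlobal p τ) (b 0) = (1 + d) • b 0 := by
    rw [add_smul, one_smul, hd]; abel
  have h1 : ρ (localGaloisToGlobal p τ) (b 1) = b 1 + e • b 0 := by
    rw [he]; abel
  have hdet' : LinearMap.det (ρ (localGaloisToGlobal p τ)) = 1 + d := by
    rw [← LinearMap.det_toMatrix b, Matrix.det_fin_two]
    simp only [LinearMap.toMatrix_apply, h0, h1, map_add, map_smul, Module.Basis.repr_self,
      Finsupp.coe_add, Finsupp.coe_smul, Pi.add_apply, Pi.smul_apply, Finsupp.single_apply,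
      smul_eq_mul]
    simp
  have hε : ε (localGaloisToGlobal p τ) = 1 + d := by rw [← hdet τ hτ, hdet']
  refine LinearMap.ext fun v => ?_
  obtain ⟨c, hc⟩ := Submodule.mem_span_singleton.1 (key σ hσ v)
  have hv : (ρ (localGaloisToGlobal p σ) - 1) v = c • b 0 := by
    rw [LinearMap.sub_apply, Module.End.one_apply, hc]
  rw [Module.End.mul_apply, hv, LinearMap.sub_apply, LinearMap.smul_apply, Module.End.one_apply,
    map_smul, h0, hε, LinearMap.zero_apply, smul_comm c, sub_self]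

end Final

end Fermat.Agent.S33P.Red63
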