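/-
S33 programme, p-old half (helper63): FLAT ⇒ ORDINARY **modulo an ideal** `𝔭` of the coefficient ring.

Same as `Red63/Old.quadratic_of_funOrders`, but everything happens on `V` over the local noetherian ring
`T`, modulo `𝔭 V` for an arbitrary ideal `𝔭` (in the application: a minimal prime of `T` at which the
`p`-old alternative holds).  No quotient ring `T ⧸ 𝔭` and no quotient module `V ⧸ 𝔭V` appear: the
flat models live on `V ⧸ (𝔭V + p^n V)`, presented as surjections `π : V →+ Q`.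

  `quadMod_of_funOrders` : `(ρ τ - ε τ)((ρ σ - 1) v) ∈ 𝔭 V` for inertial `σ, τ`;
  `quadModAt_IA`         : the same in the vocabulary of `Main68/Abstract.QuadModAt` and
                           `Plumb66.Inertia.IA p`.
-/
import Mathlib
import Fermat.Agent.S33P.Red63.Old
import Fermat.Agent.T1B.Plumb66.Inertia
import Fermat.Agent.S33P.Main68.Abstract

set_option autoImplicit false
set_option linter.unusedSectionVars false
set_option linter.style.haveILetI false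

noncomputable section

namespace Fermat.Agent.S33P.Red63

open Fermat.Agent.Flat44 Fermat.Agent.TW.B5.Iface IsLocalRing
open FunOrderRed

section Mod

variable {p : ℕ} [Fact p.Prime] {T : Type} [CommRing T] [IsLocalRing T] [IsNoetherianRing T]
  {V : Type} [AddCommGroup V] [Module T V]

/-- Krull: `⋂_n (𝔭 + 𝔪^n) = 𝔭` in a noetherian local ring. -/
theorem mem_of_forall_mem_sup_pow (𝔭 : Ideal T) {x : T}
    (h : ∀ n : ℕ, x ∈ 𝔭 ⊔ maximalIdeal T ^ n) : x ∈ 𝔭 := by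
  have hne : maximalIdeal T ≠ ⊤ := Ideal.IsPrime.ne_top'
  have hkrull := Ideal.iInf_pow_smul_eq_bot_of_isLocalRing (R := T) (M := T ⧸ 𝔭)
    (maximalIdeal T) hne
  have h1 : (Ideal.Quotient.mk 𝔭 x : T ⧸ 𝔭) ∈
      (⨅ i : ℕ, maximalIdeal T ^ i • ⊤ : Submodule T (T ⧸ 𝔭)) := by
    rw [Submodule.mem_iInf]
    intro n
    obtain ⟨y, hy, z, hz, hsum⟩ := Submodule.mem_sup.1 (h n)
    have h2 : (Ideal.Quotient.mk 𝔭 x : T ⧸ 𝔭) = z • (Ideal.Quotient.mk 𝔭 1 : T ⧸ 𝔭) := by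
      rw [← hsum, map_add, Ideal.Quotient.eq_zero_iff_mem.2 hy, zero_add, map_one,
        Algebra.smul_def, mul_one]
      rfl
    rw [h2]
    exact Submodule.smul_mem_smul hz Submodule.mem_top
  rw [hkrull, Submodule.mem_bot] at h1
  exact Ideal.Quotient.eq_zero_iff_mem.1 h1

/-- **FLAT ⇒ ORDINARY modulo `𝔭`, the line.** -/
theorem sub_mem_sup_smul_top_of_funOrders (hp2 : p ≠ 2) (hpT : (p : T) ∈ maximalIdeal T)
    (ρ : GQ →* Module.End T V) (b : Module.Basis (Fin 2) T V)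
    (σ0 : Gp p) (hσ0 : IsInertial p σ0) (α : T)
    (hα : ρ (localGaloisToGlobal p σ0) (b 0) = α • b 0) (hα1 : IsUnit (α - 1))
    (hres : ∀ τ : Gp p, IsInertial p τ → ∀ v : V,
      ρ (localGaloisToGlobal p τ) v - v ∈ (T ∙ b 0) ⊔ (maximalIdeal T • ⊤ : Submodule T V))
    (𝔭 : Ideal T)
    (hflat : ∀ n : ℕ, ∃ (Q : Type) (_ : AddCommGroup Q) (actQ : GQ → Q → Q) (π : V →+ Q),
      Function.Surjective π ∧
      (∀ v, π v = 0 ↔ v ∈ (𝔭 • ⊤ : Submodule T V) ⊔
        (Ideal.span {(p : T) ^ n} • ⊤ : Submodule T V)) ∧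
      (∀ g v, π (ρ g v) = actQ g (π v)) ∧ Nonempty (FunOrder p Q actQ)) :
    ∀ τ : Gp p, IsInertial p τ → ∀ v : V,
      ρ (localGaloisToGlobal p τ) v - v ∈ (T ∙ b 0) ⊔ (𝔭 • ⊤ : Submodule T V) := by
  haveI : Module.Finite T V := Module.Finite.of_basis b
  intro τ hτ v
  set w : V := ρ (localGaloisToGlobal p τ) v - v with hw
  have hcoord : ∀ n : ℕ, b.coord 1 w ∈ 𝔭 ⊔ maximalIdeal T ^ n := by
    intro n
    obtain ⟨Q, iQ, actQ, π, hπ, hker, heq, ⟨F⟩⟩ := hflat n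
    have h1 := sub_mem_sup_of_funOrder hp2 hpT ρ (b 0) σ0 hσ0 α hα hα1 hres
      ((𝔭 • ⊤ : Submodule T V) ⊔ (Ideal.span {(p : T) ^ n} • ⊤ : Submodule T V))
      π hπ hker heq F τ hτ v
    obtain ⟨a, ha, z, hz, hsum⟩ := Submodule.mem_sup.1 h1
    obtain ⟨z1, hz1, z2, hz2, hz12⟩ := Submodule.mem_sup.1 hz
    obtain ⟨c, rfl⟩ := Submodule.mem_span_singleton.1 ha
    rw [hw, ← hsum, ← hz12, map_add, map_add, map_smul, Module.Basis.coord_apply,
      Module.Basis.repr_self, Finsupp.single_apply, if_neg (by decide), smul_zero, zero_add]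
    have h3 : Ideal.span {(p : T) ^ n} ≤ maximalIdeal T ^ n := by
      rw [← Ideal.span_singleton_pow]
      exact Ideal.pow_right_mono ((Ideal.span_singleton_le_iff_mem _).2 hpT) n
    exact Submodule.add_mem_sup (apply_mem_of_mem_smul_top _ (b.coord 1) hz1)
      (h3 (apply_mem_of_mem_smul_top _ (b.coord 1) hz2))
  have hmem : b.coord 1 w ∈ 𝔭 := mem_of_forall_mem_sup_pow 𝔭 hcoord
  have hsum := b.sum_repr w
  rw [Fin.sum_univ_two] at hsum
  rw [← hsum]
  exact Submodule.add_mem _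
    (Submodule.mem_sup_left (Submodule.smul_mem _ _ (Submodule.mem_span_singleton_self _)))
    (Submodule.mem_sup_right (Submodule.smul_mem_smul hmem Submodule.mem_top))

/-- **FLAT ⇒ ORDINARY modulo `𝔭`**: the quadratic identity modulo `𝔭 V`. -/
theorem quadMod_of_funOrders (hp2 : p ≠ 2) (hpT : (p : T) ∈ maximalIdeal T)
    (ρ : GQ →* Module.End T V) (b : Module.Basis (Fin 2) T V)
    (σ0 : Gp p) (hσ0 : IsInertial p σ0) (α : T)
    (hα : ρ (localGaloisToGlobal p σ0) (b 0) = α • b 0) (hα1 : IsUnit (α - 1))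
    (ε : GQ → T)
    (hdet : ∀ τ : Gp p, IsInertial p τ →
      LinearMap.det (ρ (localGaloisToGlobal p τ)) = ε (localGaloisToGlobal p τ))
    (hres : ∀ τ : Gp p, IsInertial p τ → ∀ v : V,
      ρ (localGaloisToGlobal p τ) v - v ∈ (T ∙ b 0) ⊔ (maximalIdeal T • ⊤ : Submodule T V))
    (𝔭 : Ideal T)
    (hflat : ∀ n : ℕ, ∃ (Q : Type) (_ : AddCommGroup Q) (actQ : GQ → Q → Q) (π : V →+ Q),
      Function.Surjective π ∧
      (∀ v, π v = 0 ↔ v ∈ (𝔭 • ⊤ : Submodule T V) ⊔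
        (Ideal.span {(p : T) ^ n} • ⊤ : Submodule T V)) ∧
      (∀ g v, π (ρ g v) = actQ g (π v)) ∧ Nonempty (FunOrder p Q actQ)) :
    ∀ σ τ : Gp p, IsInertial p σ → IsInertial p τ → ∀ v : V,
      (ρ (localGaloisToGlobal p τ) - ε (localGaloisToGlobal p τ) • 1)
        ((ρ (localGaloisToGlobal p σ) - 1) v) ∈ (𝔭 • ⊤ : Submodule T V) := by
  have key := sub_mem_sup_smul_top_of_funOrders hp2 hpT ρ b σ0 hσ0 α hα hα1 hres 𝔭 hflat
  intro σ τ hσ hτ v
  set f := ρ (localGaloisToGlobal p τ) with hf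
  have e10 : b.coord 1 (b 0) = 0 := by
    rw [Module.Basis.coord_apply, Module.Basis.repr_self, Finsupp.single_apply,
      if_neg (by decide)]
  have e11 : b.coord 1 (b 1) = 1 := by
    rw [Module.Basis.coord_apply, Module.Basis.repr_self, Finsupp.single_apply, if_pos rfl]
  -- coordinates of `f (b 0) - b 0`, `f (b 1) - b 1`
  have hc10 : b.coord 1 (f (b 0)) ∈ 𝔭 := by
    obtain ⟨a, ha, z, hz, hsum⟩ := Submodule.mem_sup.1 (key τ hτ (b 0))
    obtain ⟨c, rfl⟩ := Submodule.mem_span_singleton.1 ha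
    have h1 : f (b 0) = b 0 + (c • b 0 + z) := by rw [hsum]; abel
    rw [h1, map_add, map_add, map_smul, e10, smul_zero, zero_add, zero_add]
    exact apply_mem_of_mem_smul_top _ (b.coord 1) hz
  have hc11 : b.coord 1 (f (b 1)) - 1 ∈ 𝔭 := by
    obtain ⟨a, ha, z, hz, hsum⟩ := Submodule.mem_sup.1 (key τ hτ (b 1))
    obtain ⟨c, rfl⟩ := Submodule.mem_span_singleton.1 ha
    have h1 : f (b 1) = b 1 + (c • b 0 + z) := by rw [hsum]; abel
    rw [h1, map_add, map_add, map_smul, e10, e11, smul_zero, zero_add, add_sub_cancel_left]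
    exact apply_mem_of_mem_smul_top _ (b.coord 1) hz
  have hdet' : LinearMap.det f =
      b.coord 0 (f (b 0)) * b.coord 1 (f (b 1)) - b.coord 0 (f (b 1)) * b.coord 1 (f (b 0)) := by
    rw [← LinearMap.det_toMatrix b, Matrix.det_fin_two]
    simp only [LinearMap.toMatrix_apply, Module.Basis.coord_apply]
  have hε : ε (localGaloisToGlobal p τ) - b.coord 0 (f (b 0)) ∈ 𝔭 := by
    rw [← hdet τ hτ, ← hf, hdet']
    have h1 : b.coord 0 (f (b 0)) * b.coord 1 (f (b 1)) -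
        b.coord 0 (f (b 1)) * b.coord 1 (f (b 0)) - b.coord 0 (f (b 0)) =
        b.coord 0 (f (b 0)) * (b.coord 1 (f (b 1)) - 1) -
          b.coord 0 (f (b 1)) * b.coord 1 (f (b 0)) := by ring
    rw [h1]
    exact 𝔭.sub_mem (𝔭.mul_mem_left _ hc11) (𝔭.mul_mem_left _ hc10)
  -- `(f - ε) (b 0) ∈ 𝔭 V`
  have hb0 : (f - ε (localGaloisToGlobal p τ) • 1) (b 0) ∈ (𝔭 • ⊤ : Submodule T V) := by
    have hsum := b.sum_repr (f (b 0))
    rw [Fin.sum_univ_two] at hsum
    rw [LinearMap.sub_apply, LinearMap.smul_apply, Module.End.one_apply, ← hsum]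
    have h1 : b.repr (f (b 0)) 0 • b 0 + b.repr (f (b 0)) 1 • b 1 -
        ε (localGaloisToGlobal p τ) • b 0 =
        -((ε (localGaloisToGlobal p τ) - b.coord 0 (f (b 0))) • b 0) +
          b.coord 1 (f (b 0)) • b 1 := by
      rw [sub_smul, Module.Basis.coord_apply, Module.Basis.coord_apply]; abel
    rw [h1]
    exact Submodule.add_mem _
      (Submodule.neg_mem _ (Submodule.smul_mem_smul hε Submodule.mem_top))
      (Submodule.smul_mem_smul hc10 Submodule.mem_top)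
  -- the general vector
  obtain ⟨a, ha, z, hz, hsum⟩ := Submodule.mem_sup.1 (key σ hσ v)
  obtain ⟨c, rfl⟩ := Submodule.mem_span_singleton.1 ha
  have hv : (ρ (localGaloisToGlobal p σ) - 1) v = c • b 0 + z := by
    rw [LinearMap.sub_apply, Module.End.one_apply, hsum]
  rw [hv, map_add, map_smul]
  exact Submodule.add_mem _ (Submodule.smul_mem _ _ hb0) (end_mem_smul_top _ _ hz)

end Mod

/-! ### In the vocabulary of the wiring -/

section IA

open Fermat.Agent.T1B.Plumb66.Inertia Fermat.Agent.S33P.Main68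

variable {p : ℕ} [Fact p.Prime] {T : Type} [CommRing T] [IsLocalRing T] [IsNoetherianRing T]
  {V : Type} [AddCommGroup V] [Module T V]

/-- **The `p`-old alternative at `𝔭` gives `QuadModAt`** (consumer: `Main68/Abstract.cubicOn_of_dichotomy`). -/
theorem quadModAt_IA (hp2 : p ≠ 2) (hpT : (p : T) ∈ maximalIdeal T)
    (ρ : GQ →* Module.End T V) (b : Module.Basis (Fin 2) T V)
    (σ0 : GQ) (hσ0 : σ0 ∈ IA p) (α : T)
    (hα : ρ σ0 (b 0) = α • b 0) (hα1 : IsUnit (α - 1))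
    (ε : GQ → T) (hdet : ∀ σ ∈ IA p, LinearMap.det (ρ σ) = ε σ)
    (hres : ∀ σ ∈ IA p, ∀ v : V, ρ σ v - v ∈ (T ∙ b 0) ⊔ (maximalIdeal T • ⊤ : Submodule T V))
    (𝔭 : Ideal T)
    (hflat : ∀ n : ℕ, ∃ (Q : Type) (_ : AddCommGroup Q) (actQ : GQ → Q → Q) (π : V →+ Q),
      Function.Surjective π ∧
      (∀ v, π v = 0 ↔ v ∈ (𝔭 • ⊤ : Submodule T V) ⊔
        (Ideal.span {(p : T) ^ n} • ⊤ : Submodule T V)) ∧
      (∀ g v, π (ρ g v) = actQ g (π v)) ∧ Nonempty (FunOrder p Q actQ)) :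
    QuadModAt ρ ε (IA p) 𝔭 := by
  obtain ⟨τ0, hτ0, rfl⟩ := exists_inertial p hσ0
  have h := quadMod_of_funOrders hp2 hpT ρ b τ0 hτ0 α hα hα1 ε
    (fun τ hτ => hdet _ ((isInertial_iff p τ).1 hτ))
    (fun τ hτ v => hres _ ((isInertial_iff p τ).1 hτ) v) 𝔭 hflat
  intro σ hσ τ hτ v
  obtain ⟨σ', hσ', rfl⟩ := exists_inertial p hσ
  obtain ⟨τ', hτ', rfl⟩ := exists_inertial p hτ
  exact h σ' τ' hσ' hτ' v

end IA

end Fermat.Agent.S33P.Red63
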