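/-
S33 programme, p-old half (helper63): the O-HALF PUSHER, abstract form.

`T` local noetherian `ℤ_p`-algebra, `V` free of rank 2, `𝔭` an ideal and `a : T` with `Ann a = 𝔭`.
Given an equivariant `ℤ_p`-linear map `Φ : V → (T_p J)^κ` which is injective on `a V` (the `p`-old
alternative at `𝔭`: `a V ≅ V/𝔭V` embeds into the Tate module of a `J` all of whose `p^n`-torsion groups
have finite flat models), the quadratic identity holds modulo `𝔭 V`:

  `a • ((ρ τ - ε τ)((ρ σ - 1) v)) = 0`  for `σ, τ ∈ I_p`.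

This is the shape (O) of helper68's seam (msg 13419) with `J := JZero M'`, `hJ` from S19.
-/
import Mathlib
import Fermat.Agent.S33P.Red63.OldMod
import Fermat.Agent.S33P.MinPrime64.Basic
import Fermat.Agent.T1.S32Asm8

set_option autoImplicit false
set_option linter.unusedSectionVars false
set_option linter.style.haveILetI false

noncomputable section

namespace Fermat.Agent.S33P.Red63

open Fermat.Agent.Flat44 Fermat.Agent.TW.B5.Iface IsLocalRing
open Fermat.Agent.T1B.Plumb66.Inertia Fermat.Agent.S33P.Main68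
open Fermat.Agent.ES.J.TateModule13 Fermat.Agent.T1.S32Asm8

section Pusher

variable {p : ℕ} [Fact p.Prime] {T : Type} [CommRing T] [Algebra ℤ_[p] T]
  {V : Type} [AddCommGroup V] [Module T V] [Module ℤ_[p] V] [IsScalarTower ℤ_[p] T V]

/-- `a • x = 0 ↔ x ∈ 𝔭 V` when `Ann a = 𝔭` (`V` free). -/
theorem smul_eq_zero_iff_of_ann {ι : Type*} (b : Module.Basis ι T V) (𝔭 : Ideal T) (a : T)
    (ha : ∀ x : T, x * a = 0 ↔ x ∈ 𝔭) (x : V) :
    a • x = 0 ↔ x ∈ (𝔭 • ⊤ : Submodule T V) := by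
  rw [Fermat.Agent.S33P.MinPrime64.mem_smul_top_iff_repr b 𝔭 x]
  constructor
  · intro h i
    rw [← ha, mul_comm]
    have := congrArg (fun y => b.repr y i) h
    simpa using this
  · intro h
    apply b.repr.injective
    ext i
    rw [map_smul, Finsupp.smul_apply, smul_eq_mul, map_zero, Finsupp.zero_apply, mul_comm]
    exact (ha _).2 (h i)

/-- **Flat models of `V / (𝔭 V + p^n V)`** from an equivariant map to a Tate module which is
injective on `a V`, `Ann a = 𝔭`. -/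
theorem hflat_of_map (ρ : GQ →* Module.End T V) {ι : Type*} (b : Module.Basis ι T V)
    (𝔭 : Ideal T) (a : T) (ha : ∀ x : T, x * a = 0 ↔ x ∈ 𝔭)
    {J : Type} [AddCommGroup J] [DistribMulAction GQ J] [Finite {y : J // p • y = 0}]
    (hJ : ∀ n : ℕ, HasFlatModel p ↥(Submodule.torsionBy ℤ J ((p : ℤ) ^ n)) (torAct n))
    {κ : ℕ} (Φ : V →ₗ[ℤ_[p]] (Fin κ → TateModule p J))
    (hΦ : ∀ (g : GQ) (v : V) (i : Fin κ), Φ (ρ g v) i = rho p J g (Φ v i))
    (hinj : ∀ v : V, Φ (a • v) = 0 → a • v = 0) (n : ℕ) :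
    ∃ (Q : Type) (_ : AddCommGroup Q) (actQ : GQ → Q → Q) (π : V →+ Q),
      Function.Surjective π ∧
      (∀ v, π v = 0 ↔ v ∈ (𝔭 • ⊤ : Submodule T V) ⊔
        (Ideal.span {(p : T) ^ n} • ⊤ : Submodule T V)) ∧
      (∀ g v, π (ρ g v) = actQ g (π v)) ∧ Nonempty (FunOrder p Q actQ) := by
  classical
  -- the `ℤ_p`-submodule `a V`
  let aV : Submodule ℤ_[p] V :=
    LinearMap.range ((LinearMap.lsmul T V a).restrictScalars ℤ_[p])
  have hmem : ∀ v : V, a • v ∈ aV := fun v => ⟨v, rfl⟩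
  -- the action on `a V`
  let actV : GQ → aV → aV := fun g x => ⟨ρ g (x : V), by
    obtain ⟨v, hv⟩ := x.2
    refine ⟨ρ g v, ?_⟩
    show a • ρ g v = ρ g (x : V)
    rw [← map_smul]
    exact congrArg (ρ g) hv⟩
  -- the embedding
  let Ψ : aV →ₗ[ℤ_[p]] (Fin κ → TateModule p J) := Φ.comp aV.subtype
  have hΨinj : Function.Injective Ψ := by
    rw [← LinearMap.ker_eq_bot, LinearMap.ker_eq_bot']
    rintro ⟨x, v, rfl⟩ hx
    apply Subtype.ext
    exact hinj v hx
  have hΨσ : ∀ (σ : GQ) (x : aV) (i : Fin κ), Ψ (actV σ x) i = rho p J σ (Ψ x i) :=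
    fun σ x i => hΦ σ (x : V) i
  -- the subgroup `p^n (a V)`
  let W : AddSubgroup aV :=
    (LinearMap.range (LinearMap.lsmul ℤ_[p] aV ((p : ℤ_[p]) ^ n))).toAddSubgroup
  have hk : ∀ x : aV, ((p : ℤ_[p]) ^ n) • x ∈ W := fun x => ⟨x, rfl⟩
  have hW : ∀ σ, ∀ x ∈ W, actV σ x ∈ W := by
    rintro σ _ ⟨y, rfl⟩
    refine ⟨actV σ y, ?_⟩
    apply Subtype.ext
    show ((p : ℤ_[p]) ^ n) • ρ σ (y : V) = ρ σ (((p : ℤ_[p]) ^ n) • (y : V))
    rw [← algebraMap_smul T ((p : ℤ_[p]) ^ n) (y : V), map_smul, algebraMap_smul]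
  have hadd : ∀ σ (x y : aV), actV σ (x + y) = actV σ x + actV σ y := by
    intro σ x y
    apply Subtype.ext
    show ρ σ ((x : V) + (y : V)) = ρ σ (x : V) + ρ σ (y : V)
    rw [map_add]
  let actq : GQ → aV ⧸ W → aV ⧸ W := fun σ =>
    QuotientAddGroup.map W W (AddMonoidHom.mk' (actV σ) (hadd σ)) (fun x hx => hW σ x hx)
  have hq : ∀ σ x, actq σ (QuotientAddGroup.mk x) = QuotientAddGroup.mk (actV σ x) :=
    fun _ _ => rfl
  have hflat : HasFlatModel p (aV ⧸ W) actq :=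
    hasFlatModel_quot hJ actV Ψ hΨinj hΨσ W n hk hW actq hq
  -- the projection
  let π : V →+ aV ⧸ W :=
    (QuotientAddGroup.mk' W).comp
      (AddMonoidHom.mk' (fun v => (⟨a • v, hmem v⟩ : aV)) (fun v w => by
        apply Subtype.ext
        show a • (v + w) = a • v + a • w
        rw [smul_add]))
  have hπ : ∀ v, π v = QuotientAddGroup.mk (⟨a • v, hmem v⟩ : aV) := fun _ => rfl
  refine ⟨aV ⧸ W, inferInstance, actq, π, ?_, ?_, ?_, funOrder_of_hasFlatModel hflat⟩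
  · intro q
    induction q using QuotientAddGroup.induction_on with
    | H x =>
      obtain ⟨x, v, rfl⟩ := x
      exact ⟨v, rfl⟩
  · intro v
    rw [hπ, QuotientAddGroup.eq_zero_iff]
    constructor
    · rintro ⟨⟨_, w, rfl⟩, hy⟩
      have h1 : ((p : ℤ_[p]) ^ n) • (a • w) = a • v := congrArg Subtype.val hy
      have h2 : a • (v - ((p : T) ^ n) • w) = 0 := by
        rw [smul_sub, ← h1, smul_comm a, ← algebraMap_smul T ((p : ℤ_[p]) ^ n) (a • w), map_pow,
          map_natCast, sub_self]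
      have h3 := (smul_eq_zero_iff_of_ann b 𝔭 a ha _).1 h2
      have h4 : v = (v - ((p : T) ^ n) • w) + ((p : T) ^ n) • w := by abel
      rw [h4]
      exact Submodule.add_mem _ (Submodule.mem_sup_left h3)
        (Submodule.mem_sup_right (Submodule.smul_mem_smul
          (Ideal.mem_span_singleton_self _) Submodule.mem_top))
    · intro hv
      obtain ⟨y, hy, z, hz, rfl⟩ := Submodule.mem_sup.1 hv
      have hy0 : a • y = 0 := (smul_eq_zero_iff_of_ann b 𝔭 a ha y).2 hy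
      -- `z = p^n • z'`
      have hz' : ∃ z' : V, z = ((p : T) ^ n) • z' := by
        refine Submodule.smul_induction_on hz (fun r hr m _ => ?_) (fun x y hx hy => ?_)
        · obtain ⟨c, rfl⟩ := Ideal.mem_span_singleton'.1 hr
          exact ⟨c • m, by rw [smul_smul, mul_comm]⟩
        · obtain ⟨x', rfl⟩ := hx
          obtain ⟨y', rfl⟩ := hy
          exact ⟨x' + y', by rw [smul_add]⟩
      obtain ⟨z', rfl⟩ := hz'
      refine ⟨⟨a • z', hmem z'⟩, ?_⟩
      apply Subtype.ext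
      show ((p : ℤ_[p]) ^ n) • (a • z') = a • (y + ((p : T) ^ n) • z')
      rw [smul_add, hy0, zero_add, smul_comm a, ← algebraMap_smul T ((p : ℤ_[p]) ^ n) (a • z'),
        map_pow, map_natCast]
  · intro g v
    rw [hπ, hπ, hq]
    congr 1
    apply Subtype.ext
    show a • ρ g v = ρ g (a • v)
    rw [map_smul]

variable [IsLocalRing T] [IsNoetherianRing T]

/-- **The O-half pusher**, abstract form: the `p`-old alternative at `𝔭 = Ann a` gives the quadratic
identity on `a V`. -/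
theorem smul_quad_eq_zero_of_embedding (hp2 : p ≠ 2) (hpT : (p : T) ∈ maximalIdeal T)
    (ρ : GQ →* Module.End T V) (b : Module.Basis (Fin 2) T V)
    (σ0 : GQ) (hσ0 : σ0 ∈ IA p) (α : T) (hα : ρ σ0 (b 0) = α • b 0) (hα1 : IsUnit (α - 1))
    (ε : GQ → T) (hdet : ∀ σ ∈ IA p, LinearMap.det (ρ σ) = ε σ)
    (hres : ∀ σ ∈ IA p, ∀ v : V,
      ρ σ v - v ∈ (T ∙ b 0) ⊔ (maximalIdeal T • ⊤ : Submodule T V))
    (𝔭 : Ideal T) (a : T) (ha : ∀ x : T, x * a = 0 ↔ x ∈ 𝔭)
    {J : Type} [AddCommGroup J] [DistribMulAction GQ J] [Finite {y : J // p • y = 0}]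
    (hJ : ∀ n : ℕ, HasFlatModel p ↥(Submodule.torsionBy ℤ J ((p : ℤ) ^ n)) (torAct n))
    {κ : ℕ} (Φ : V →ₗ[ℤ_[p]] (Fin κ → TateModule p J))
    (hΦ : ∀ (g : GQ) (v : V) (i : Fin κ), Φ (ρ g v) i = rho p J g (Φ v i))
    (hinj : ∀ v : V, Φ (a • v) = 0 → a • v = 0) :
    ∀ σ ∈ IA p, ∀ τ ∈ IA p, ∀ v : V, a • ((ρ τ - ε τ • 1) ((ρ σ - 1) v)) = 0 := by
  have h := quadModAt_IA hp2 hpT ρ b σ0 hσ0 α hα hα1 ε hdet hres 𝔭
    (hflat_of_map ρ b 𝔭 a ha hJ Φ hΦ hinj)
  intro σ hσ τ hτ v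
  exact (smul_eq_zero_iff_of_ann b 𝔭 a ha _).2 (h σ hσ τ hτ v)

end Pusher

end Fermat.Agent.S33P.Red63
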