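/-
S33 programme, p-old half (helper63): THE O-HALF for a `GaloisRepAdic`.

`ρ : GaloisRepAdic A`, `A` local noetherian complete `ℤ_p`-algebra of residue characteristic `p` odd,
`det ρ = ε` (cyclotomic modulo `𝔪`), residual representation ordinary at `p`.  If `𝔭 = Ann a` and
`a V` embeds equivariantly (over `ℤ_p`) into a power of the `p`-adic Tate module of a `J` whose
`p^n`-torsion groups all have finite flat models, then

  `a • ((ρ τ - ε τ)((ρ σ - 1) v)) = 0`   for `σ, τ ∈ I_p`.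

Assembly of: `O2Unram95/Sigma0.exists_sigma0` (helper95), `Red63/Eigen.exists_eigenbasis`
(pieces: helper76), `Red63/Hres.hres_of_exists`, `Red63/Pusher.smul_quad_eq_zero_of_embedding`.
In the S33 context: `A := T`, `ρ := H.ρ`, `ε := Main68.eps p hpT`, `J := JZero M'`, `hJ` from S19.
-/
import Mathlib
import Fermat.Agent.S33P.Red63.Pusher
import Fermat.Agent.S33P.Red63.Hres
import Fermat.Agent.S33P.Red63.Eigen
import Fermat.Agent.S33P.O2Unram95.Sigma0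

set_option autoImplicit false
set_option linter.unusedSectionVars false
set_option linter.style.haveILetI false

noncomputable section

namespace Fermat.Agent.S33P.Red63

open Fermat.Agent.Flat44 IsLocalRing
open Fermat.Agent.T1B.Plumb66.Inertia
open Fermat.Agent.ES.J.TateModule13 Fermat.Agent.T1.S32Asm8
open Fermat.Agent.S33P.O2Unram95 Fermat.Agent.S33P.Alg76

/-- **The O-half for a `GaloisRepAdic`.** -/
theorem quad_of_embedding_adic {p : ℕ} [Fact p.Prime] (hp2 : p ≠ 2)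
    {A : Type} [CommRing A] [IsLocalRing A] [IsNoetherianRing A]
    [IsAdicComplete (maximalIdeal A) A] [Algebra ℤ_[p] A]
    (hpA : (p : A) ∈ maximalIdeal A) (ρ : GaloisRepAdic A)
    [Module ℤ_[p] ρ.V] [IsScalarTower ℤ_[p] A ρ.V]
    (ε : GQ → A) (hdet : ∀ g, LinearMap.det (ρ.ρ g) = ε g) (hc : DetCycloModMax p ρ)
    (hres : (GaloisRepAdic.ofResidualGaloisRep ρ.residual).IsOrdinaryAt p)
    (𝔭 : Ideal A) (a : A) (ha : ∀ x : A, x * a = 0 ↔ x ∈ 𝔭)
    {J : Type} [AddCommGroup J] [DistribMulAction GQ J] [Finite {y : J // p • y = 0}]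
    (hJ : ∀ n : ℕ, HasFlatModel p ↥(Submodule.torsionBy ℤ J ((p : ℤ) ^ n)) (torAct n))
    {κ : ℕ} (Φ : ρ.V →ₗ[ℤ_[p]] (Fin κ → TateModule p J))
    (hΦ : ∀ (g : GQ) (v : ρ.V) (i : Fin κ), Φ (ρ.ρ g v) i = rho p J g (Φ v i))
    (hinj : ∀ v : ρ.V, Φ (a • v) = 0 → a • v = 0) :
    ∀ σ ∈ IA p, ∀ τ ∈ IA p, ∀ v : ρ.V, a • ((ρ.ρ τ - ε τ • 1) ((ρ.ρ σ - 1) v)) = 0 := by
  obtain ⟨σ0, hσ0, hu, htr, hE⟩ := exists_sigma0 p ρ hp2 hpA ε hdet hc hres
  obtain ⟨b, α, β, hα, hβ, hα1, hβ1, -, -, -⟩ :=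
    exists_eigenbasis (henselProp_of_isAdicComplete A) ρ.finrank_eq (ρ.ρ σ0) (ε σ0) (hdet σ0) hu htr
  exact smul_quad_eq_zero_of_embedding hp2 hpA ρ.ρ b σ0 hσ0 α hα hα1 ε (fun σ _ => hdet σ)
    (hres_of_exists ρ.ρ b σ0 α β hα hβ hβ1 (IA p) hE) 𝔭 a ha hJ Φ hΦ hinj

end Fermat.Agent.S33P.Red63
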