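/-
S33 programme, p-old half (helper63): THE `hold` PROVIDER in the literal context of the frozen S33.

`hold_of_hdet` is, verbatim, the hypothesis `hold` of `Main68.cubicOn_concrete` (helper68) at
`V := H.ρ.V`, `ρ := H.ρ.ρ`, `ε := Main68.eps p hpT`, for any `ℤ_p`-structures on `T`, `V` forming a
scalar tower (in `Main68/Final.lean`: `Embed83.algT hpT` and `Module.compHom _ (algebraMap ℤ_[p] T)`).

Inputs: `hdet : det ρ = ε` (helper83 `Embed83.det_eq_cyclo` / A2'(c)), `hres` (hypothesis of S33),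
and S19 in the intrinsic form `h19 : Flat44.S19FlatTarget` (discharged by
`FlatS19_34.s19FlatTarget`, file `FlatS19_34/Main.lean`; kept as a hypothesis here so that this file
has a light closure).

* `eps_sub_natCast_mem`   : `ε(g) ≡ a mod p^n` if `g` acts on `μ_{p^n}` by `μ ↦ μ^a`;
* `detCycloModMax_of_hdet`: `O2Unram95.DetCycloModMax p ρ` from `det ρ = ε`;
* `hold_adic`             : the `hold` shape for any `ρ : GaloisRepAdic T`;
* `hold_of_hdet`          : the `hold` shape for `H : HeckeGaloisRepDatum N S 𝒪 θ T`.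
-/
import Mathlib
import Fermat.Prelude.Def_CuspForm_HeckeGaloisRepDatum
import Fermat.Agent.S33P.Red63.OldHalf
import Fermat.Agent.S33P.FlatS19_34.Core
import Fermat.Agent.S33P.Alg16.MinPrimes
import Fermat.Agent.S33P.Main68.Top

set_option autoImplicit false
set_option linter.unusedSectionVars false
set_option linter.style.haveILetI false

noncomputable section

namespace Fermat.Agent.S33P.Red63

open AlgebraicCurve ModularCurve
open Fermat.Agent.Flat44 IsLocalRing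
open Fermat.Agent.T1B.Plumb66.Inertia
open Fermat.Agent.ES.J.TateModule13 Fermat.Agent.ES.J.CycloChar8
open Fermat.Agent.S33P.O2Unram95 Fermat.Agent.S33P.Alg16.MinPrimes
open Fermat.Agent.S33P.Main68

section Eps

variable {p : ℕ} [hp : Fact p.Prime] {T : Type} [CommRing T] [IsLocalRing T]
  [IsAdicComplete (maximalIdeal T) T]

/-- `ε(g) ≡ a mod p^n` if `g` acts on the `p^n`-th roots of unity by `μ ↦ μ^a`. -/
theorem eps_sub_natCast_mem (hpT : (p : T) ∈ maximalIdeal T) (n : ℕ) (g : GQ) (a : ℕ)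
    (h : ∀ μ : AlgebraicClosure ℚ, μ ^ p ^ n = 1 → g μ = μ ^ a) :
    eps p hpT g - (a : T) ∈ Ideal.span {((p ^ n : ℕ) : T)} := by
  obtain ⟨ζ, hζ⟩ := exists_primitiveRoot p n
  have h1 : ((cyclo p g : ℤ_[p]ˣ) : ℤ_[p]).toZModPow n = (a : ZMod (p ^ n)) :=
    toZModPow_cyclo p hζ (h ζ hζ.pow_eq_one)
  have h2 : ((cyclo p g : ℤ_[p]ˣ) : ℤ_[p]) - (a : ℤ_[p]) ∈
      RingHom.ker (PadicInt.toZModPow (p := p) n) := by
    rw [RingHom.mem_ker, map_sub, map_natCast, h1, sub_self]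
  rw [PadicInt.ker_toZModPow] at h2
  obtain ⟨y, hy⟩ := Ideal.mem_span_singleton'.mp h2
  rw [Ideal.mem_span_singleton']
  refine ⟨Fermat.Agent.ES.J.PadicAlg8.padicToLocal p hpT y, ?_⟩
  have h3 := congrArg (Fermat.Agent.ES.J.PadicAlg8.padicToLocal p hpT) hy
  rw [map_mul, map_sub, map_natCast, map_pow, map_natCast] at h3
  rw [Nat.cast_pow, h3]
  rfl

/-- the determinant is cyclotomic modulo `𝔪` as soon as `det ρ = ε`. -/
theorem detCycloModMax_of_hdet (hpT : (p : T) ∈ maximalIdeal T) (ρ : GaloisRepAdic T)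
    (hdet : ∀ g, LinearMap.det (ρ.ρ g) = eps p hpT g) : DetCycloModMax p ρ :=
  detCycloModMax_of_eps p ρ hpT (eps p hpT) hdet
    (fun n g a h => eps_sub_natCast_mem hpT n g a h)

end Eps

section Hold

variable {p : ℕ} [hp : Fact p.Prime] {T : Type} [CommRing T] [IsLocalRing T] [IsNoetherianRing T]
  [IsAdicComplete (maximalIdeal T) T]

/-- **The `hold` shape for a `GaloisRepAdic`.** -/
theorem hold_adic (h19 : S19FlatTarget) (hp2 : p ≠ 2) (hpT : (p : T) ∈ maximalIdeal T)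
    (ρ : GaloisRepAdic T)
    (hres : (GaloisRepAdic.ofResidualGaloisRep ρ.residual).IsOrdinaryAt p)
    (hdet : ∀ g, LinearMap.det (ρ.ρ g) = eps p hpT g)
    [Algebra ℤ_[p] T] [Module ℤ_[p] ρ.V] [IsScalarTower ℤ_[p] T ρ.V]
    (M' : ℕ) [NeZero M'] (hpM : ¬ p ∣ M') (𝔭 : Ideal T) (_h𝔭 : 𝔭 ∈ minimalPrimes T) (a : T)
    (ha : IsAnnWitness 𝔭 a) (κ : ℕ) (Φ : ρ.V →ₗ[ℤ_[p]] (Fin κ → TateModule p (JZero M')))
    (hΦ : ∀ (g : GQ) (v : ρ.V) (i : Fin κ), Φ (ρ.ρ g v) i = rho p (JZero M') g (Φ v i))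
    (hinj : ∀ v : ρ.V, Φ (a • v) = 0 → a • v = 0) :
    ∀ σ ∈ IA p, ∀ τ ∈ IA p, ∀ v : ρ.V,
      a • ((ρ.ρ τ - eps p hpT τ • 1) ((ρ.ρ σ - 1) v)) = 0 := by
  haveI : Finite {y : JZero M' // p • y = 0} := FlatS19_34.Core.finite_pTorsion M'
  exact quad_of_embedding_adic hp2 hpT ρ (eps p hpT) hdet (detCycloModMax_of_hdet hpT ρ hdet) hres
    𝔭 a ha.2 (fun n => FlatS19_34.Core.hasFlatModel_torsion h19 M' hpM n) Φ hΦ hinj

end Hold

section Literal

variable {p : ℕ} {N : ℕ} [NeZero N] {S : Finset ℕ}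
  {𝒪 : Type} [CommRing 𝒪] [IsDomain 𝒪] [IsDiscreteValuationRing 𝒪]
  [IsAdicComplete (IsLocalRing.maximalIdeal 𝒪) 𝒪]
  {θ : CuspForm.heckeAlgebra N 2 (↑S : Set ℕ) →+* IsLocalRing.ResidueField 𝒪}
  {T : Type} [CommRing T] [IsLocalRing T] [IsNoetherianRing T]
  [IsAdicComplete (IsLocalRing.maximalIdeal T) T] [Algebra 𝒪 T] [IsLocalHom (algebraMap 𝒪 T)]
  [Module.Finite 𝒪 T] [Module.Free 𝒪 T]

/-- **The `p`-old half in the literal S33 context**: verbatim the hypothesis `hold` of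
`Main68.cubicOn_concrete` at `V := H.ρ.V`, `ρ := H.ρ.ρ`, `ε := Main68.eps p hpT`. -/
theorem hold_of_hdet [Fact p.Prime] (h19 : S19FlatTarget) (hp2 : p ≠ 2)
    (H : CuspForm.HeckeGaloisRepDatum N (↑S : Set ℕ) 𝒪 θ T)
    (hres : (GaloisRepAdic.ofResidualGaloisRep H.ρ.residual).IsOrdinaryAt p)
    (hpT : (p : T) ∈ IsLocalRing.maximalIdeal T)
    (hdet : ∀ g, LinearMap.det (H.ρ.ρ g) = eps p hpT g)
    [Algebra ℤ_[p] T] [Module ℤ_[p] H.ρ.V] [IsScalarTower ℤ_[p] T H.ρ.V] :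
    ∀ (M' : ℕ) [NeZero M'], ¬ p ∣ M' → ∀ 𝔭 ∈ minimalPrimes T, ∀ a : T,
      IsAnnWitness 𝔭 a →
      ∀ (κ : ℕ) (Φ : H.ρ.V →ₗ[ℤ_[p]] (Fin κ → TateModule p (JZero M'))),
        (∀ (g : GQ) (v : H.ρ.V) (i : Fin κ), Φ (H.ρ.ρ g v) i = rho p (JZero M') g (Φ v i)) →
        (∀ v : H.ρ.V, Φ (a • v) = 0 → a • v = 0) →
        ∀ σ ∈ IA p, ∀ τ ∈ IA p, ∀ v : H.ρ.V,
          a • ((H.ρ.ρ τ - eps p hpT τ • 1) ((H.ρ.ρ σ - 1) v)) = 0 :=
  fun M' _ hpM 𝔭 h𝔭 a ha κ Φ hΦ hinj =>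
    hold_adic h19 hp2 hpT H.ρ hres hdet M' hpM 𝔭 h𝔭 a ha κ Φ hΦ hinj

end Literal

end Fermat.Agent.S33P.Red63
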